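import Fermat.Agent.MazFF.Fix
import Fermat.Agent.Maz.Defs
import Fermat.Agent.AnJac.Canon

/-!
# FINFROB: classes fixed by the decomposition group are torsion modulo the kernel of reduction
-/

set_option autoImplicit false
set_option linter.unusedSectionVars false
set_option synthInstance.maxHeartbeats 400000
set_option maxHeartbeats 400000

noncomputable section

namespace Fermat.Agent.MazFF

open ModularCurve AlgebraicCurve Fermat.Agent.Curves Fermat.Agent.GoodRed IsLocalRing
open Fermat.Agent.AnJac Fermat.Agent.S37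
open scoped Pointwise

local notation "Qbar" => AlgebraicClosure ℚ
local notation "GQ" => Qbar ≃ₐ[ℚ] Qbar

/-- Frobenius as a semilinear automorphism of `F_M` -/
def PhiM (κ : Type*) [Field κ] [IsAlgClosed κ] (M ℓ : ℕ) [Fact ℓ.Prime] [CharP κ ℓ] :
    SemilinearAut κ (modularFunctionFieldFullC κ M) :=
  haveI : ExpChar κ ℓ := ExpChar.prime Fact.out
  haveI : PerfectRing κ ℓ := inferInstance
  ⟨(galF M (frobeniusEquiv κ ℓ), frobeniusEquiv κ ℓ), fun a => galF_const _ a⟩

theorem PhiM_base {κ : Type*} [Field κ] [IsAlgClosed κ] (M ℓ : ℕ) [Fact ℓ.Prime] [CharP κ ℓ]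
    (a : κ) : SemilinearAut.baseAut (PhiM κ M ℓ) a = a ^ ℓ := rfl

theorem PhiM_coe {κ : Type*} [Field κ] [IsAlgClosed κ] (M ℓ : ℕ) [Fact ℓ.Prime] [CharP κ ℓ]
    (f : modularFunctionFieldFullC κ M) :
    ((PhiM κ M ℓ • f : modularFunctionFieldFullC κ M) : LaurentSeries κ) =
      coeffMap (frobenius κ ℓ) (f : LaurentSeries κ) := by
  haveI : ExpChar κ ℓ := ExpChar.prime Fact.out
  change ((galF M (frobeniusEquiv κ ℓ) f : modularFunctionFieldFullC κ M) : LaurentSeries κ) = _
  rw [coe_galF]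
  ext n
  simp only [coeffMap_coeff]
  rfl

/-- rigidity for semilinear automorphisms -/
theorem rigid_smul {k F k' F' : Type*} [Field k] [Field F] [Algebra k F] [Field k'] [Field F']
    [Algebra k' F'] [IsFunctionField k F] [IsAlgClosed k] [IsFunctionField k' F'] [IsAlgClosed k']
    {δ : Divisor k F →+ Divisor k' F'} {c : ℤ} (h : PosDeg δ c) (g : SemilinearAut k F)
    (g' : SemilinearAut k' F')
    (hpr : ∀ f : F, f ≠ 0 → δ (g • divisorOf f) = g' • δ (divisorOf f))
    {D : Divisor k F} (hD : Divisor.degree D = 0) : δ (g • D) = g' • δ D := by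
  have h1 : PosDeg (δ.comp (DistribSMul.toAddMonoidHom (Divisor k F) g)) (c * 1) :=
    (smul_posDeg g).comp h
  have h2 : PosDeg ((DistribSMul.toAddMonoidHom (Divisor k' F') g').comp δ) (1 * c) :=
    h.comp (smul_posDeg _)
  exact rigid h1 h2 hpr hD

section

variable {N : ℕ} [NeZero N] {A : ValuationSubring Qbar} {M : ℕ}
  [IsFunctionField (ResidueField A) (modularFunctionFieldFullC (ResidueField A) M)]
  (r : RedMap A N M)

theorem inclusion_frob {ℓ : ℕ} [hℓ : Fact ℓ.Prime] [CharP (ResidueField A) ℓ]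
    (gb : modularFunctionFieldFullC (ResidueField A) N) :
    IntermediateField.inclusion r.hle (coeffF N (frobenius (ResidueField A) ℓ) gb) =
      PhiM (ResidueField A) M ℓ • IntermediateField.inclusion r.hle gb := by
  apply Subtype.ext
  rw [PhiM_coe]
  rfl

theorem frob_div {ℓ : ℕ} [hℓ : Fact ℓ.Prime] [CharP (ResidueField A) ℓ]
    {σ : GQ} (hσ : A.IsFrobeniusAt σ ℓ) {f g : modularFunctionFieldBar N}
    {gb : modularFunctionFieldFullC (ResidueField A) N} (hgb : gb ≠ 0)
    (hdiv : divisorOf (k := Qbar) f = divisorOf g)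
    (hLR : LR (residue A) (g : LaurentSeries Qbar) (gb : LaurentSeries (ResidueField A))) :
    r.R (gact N σ • divisorOf f) = PhiM (ResidueField A) M ℓ • r.R (divisorOf f) := by
  have h3 := LR_gact hσ hLR
  have hfr0 : coeffF N (frobenius (ResidueField A) ℓ) gb ≠ 0 := (map_ne_zero _).mpr hgb
  rw [hdiv, GoodRed.smul_divisorOf]
  rw [r.spec' h3 hfr0]
  rw [r.spec' hLR hgb]
  rw [inclusion_frob r]
  exact (GoodRed.smul_divisorOf _ _).symm

/-- Frobenius elements act through Frobenius on reductions of divisors of degree zero -/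
theorem RedMap_frob {ℓ : ℕ} [hℓ : Fact ℓ.Prime] [CharP (ResidueField A) ℓ] (hA : A.LiesOverPrime ℓ)
    (hN : ¬ ℓ ∣ N) {σ : GQ} (hσ : A.IsFrobeniusAt σ ℓ)
    {D : Divisor Qbar (modularFunctionFieldBar N)} (hD : Divisor.degree D = 0) :
    r.R (gact N σ • D) = PhiM (ResidueField A) M ℓ • r.R D := by
  refine rigid_smul r.posDeg (gact N σ) (PhiM (ResidueField A) M ℓ) (fun f hf => ?_) hD
  obtain ⟨g, gb, hg, hgb, hdiv, hLR⟩ := RedMap.exists_scale hℓ.out hA hN hf
  exact frob_div r hσ hgb hdiv hLR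

end

/-- FINFROB for a fixed Frobenius element -/
theorem finFrob_at {N : ℕ} [NeZero N] {ℓ : ℕ} {A : ValuationSubring Qbar}
    {K : AddSubgroup (JZero N)} (hK : Maz.IsRedKer N ℓ A K) {σ : GQ}
    (hσ : A.IsFrobeniusAt σ ℓ) :
    ∃ D : ℕ, D ≠ 0 ∧ ∀ y : JZero N, σ • y = y → D • y ∈ K := by
  obtain ⟨hℓ, hA, hN, M, hM, r, -, -, rfl⟩ := hK
  have : Fact ℓ.Prime := ⟨hℓ⟩
  haveI : CharP (ResidueField A) ℓ := FrobDens.charP_residueField A hℓ hA
  -- the function `j`
  let x : modularFunctionFieldFullC (ResidueField A) M :=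
    ⟨jqModC (ResidueField A), jqModC_mem_full (ResidueField A) M⟩
  have htr : Transcendental (ResidueField A) x := by
    intro h
    exact Curves.transcendental_jqModC (ResidueField A)
      (h.algHom (modularFunctionFieldFullC (ResidueField A) M).val)
  have hx0 : x ≠ 0 := by
    intro h
    apply htr
    rw [h]
    exact isAlgebraic_zero
  have hx : PhiM (ResidueField A) M ℓ • x = x := by
    apply Subtype.ext
    rw [PhiM_coe]
    exact coeffMap_jqModC _
  obtain ⟨D, hD0, hD⟩ := fixed_classes (K := ResidueField A) (ℓ := ℓ)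
    (Φ := PhiM (ResidueField A) M ℓ) (PhiM_base M ℓ) hx hx0 htr
  refine ⟨D, hD0, fun y hy => ?_⟩
  obtain ⟨E, rfl⟩ := Pic0.mk_surjective y
  have hE : Divisor.degree (E : Divisor Qbar (modularFunctionFieldBar N)) = 0 := E.2
  have h1 := hy
  have h2 : redHom r hℓ hA hN (σ • (Pic0.mk E : JZero N)) = redHom r hℓ hA hN (Pic0.mk E) := by
    rw [h1]
  rw [gal_mk, redHom_mk, redHom_mk] at h2
  change (QuotientAddGroup.mk (r.R (gact N σ • (E : Divisor Qbar (modularFunctionFieldBar N)))) :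
    (Divisor (ResidueField A) (modularFunctionFieldFullC (ResidueField A) M) ⧸ _)) = _ at h2
  rw [RedMap_frob r hA hN hσ hE, ← sub_eq_zero, ← QuotientAddGroup.mk_sub,
    QuotientAddGroup.eq_zero_iff] at h2
  obtain ⟨h, hh0, hh⟩ := h2
  have hdeg : Divisor.degree (r.R (E : Divisor Qbar (modularFunctionFieldBar N))) = 0 := by
    rw [r.posDeg.degree, hE, mul_zero]
  obtain ⟨g, hg0, hg⟩ := hD _ hdeg ⟨h, hh0, by
    ext P
    exact hh P⟩
  rw [AddMonoidHom.mem_ker, map_nsmul, redHom_mk, ← QuotientAddGroup.mk_nsmul,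
    QuotientAddGroup.eq_zero_iff, hg]
  exact ⟨g, hg0, fun P => rfl⟩

theorem finFrob : Maz.FinFrob := by
  intro N _ ℓ A K hK
  obtain ⟨hℓ, hA, -⟩ := id hK
  obtain ⟨σ, hσ⟩ := Frob.exists_isFrobeniusAt_Qbar A hℓ hA
  obtain ⟨D, hD0, hD⟩ := finFrob_at hK hσ
  exact ⟨D, hD0, fun y hy => hD y (hy σ hσ.mem_decompositionSubgroup)⟩

end Fermat.Agent.MazFF
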