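import Mathlib

/-!
# Fixed vectors of Frobenius-semilinear maps (Lang)
-/

set_option autoImplicit false

noncomputable section

namespace Fermat.Agent.MazFF

open Polynomial

variable {K : Type*} [Field K] {ℓ : ℕ}

/-- the recursively defined coordinates, as polynomials in the last coordinate -/
def xp (ℓ : ℕ) (a : ℕ → K) : ℕ → K[X]
  | 0 => C (a 0) * X ^ ℓ
  | (i + 1) => (xp ℓ a i) ^ ℓ + C (a (i + 1)) * X ^ ℓ

theorem xp_deriv [Fact ℓ.Prime] [CharP K ℓ] (a : ℕ → K) (i : ℕ) : derivative (xp ℓ a i) = 0 := by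
  have h0 : (C ((ℓ : ℕ) : K) : K[X]) = 0 := by rw [CharP.cast_eq_zero, C_0]
  cases i with
  | zero => rw [xp, derivative_C_mul_X_pow, CharP.cast_eq_zero, mul_zero, C_0, zero_mul]
  | succ i =>
    rw [xp, derivative_add, derivative_pow, h0, zero_mul, zero_mul, derivative_C_mul_X_pow,
      CharP.cast_eq_zero, mul_zero, C_0, zero_mul, add_zero]

theorem xp_coeff [hℓ : Fact ℓ.Prime] (a : ℕ → K) (i : ℕ) {j : ℕ} (hj : j < ℓ) :
    (xp ℓ a i).coeff j = 0 := by
  induction i generalizing j with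
  | zero => rw [xp, coeff_C_mul_X_pow, if_neg hj.ne]
  | succ i ih =>
    rw [xp, coeff_add, coeff_C_mul_X_pow, if_neg hj.ne, add_zero]
    have h1 : X ^ ℓ ∣ xp ℓ a i := by
      rw [X_pow_dvd_iff]
      exact fun d hd => ih hd
    have h2 : X ^ ℓ ∣ (xp ℓ a i) ^ ℓ := dvd_pow h1 hℓ.out.ne_zero
    exact (X_pow_dvd_iff.mp h2) j hj

theorem xp_ne_zero [hℓ : Fact ℓ.Prime] {a : ℕ → K} {i : ℕ} (h : ∃ j ≤ i, a j ≠ 0) :
    xp ℓ a i ≠ 0 := by
  induction i with
  | zero =>
    obtain ⟨j, hj, hja⟩ := h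
    have : j = 0 := by omega
    subst this
    rw [xp]
    exact mul_ne_zero (C_ne_zero.mpr hja) (pow_ne_zero _ X_ne_zero)
  | succ i ih =>
    intro h0
    have h1 : X ^ ℓ ∣ xp ℓ a i := by
      rw [X_pow_dvd_iff]
      exact fun d hd => xp_coeff a i hd
    have h2 : X ^ (ℓ * ℓ) ∣ (xp ℓ a i) ^ ℓ := by
      rw [pow_mul]
      exact pow_dvd_pow_of_dvd h1 ℓ
    have hlt : ℓ < ℓ * ℓ := by
      have := hℓ.out.one_lt
      nlinarith
    have h3 : ((xp ℓ a i) ^ ℓ).coeff ℓ = 0 := (X_pow_dvd_iff.mp h2) ℓ hlt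
    have h4 : (xp ℓ a (i + 1)).coeff ℓ = a (i + 1) := by
      rw [xp, coeff_add, h3, zero_add, coeff_C_mul_X_pow, if_pos rfl]
    have h5 : a (i + 1) = 0 := by rw [← h4, h0, coeff_zero]
    obtain ⟨j, hj, hja⟩ := h
    have hj' : j ≤ i := by
      rcases Nat.lt_or_ge i j with h | h
      · have : j = i + 1 := by omega
        rw [this] at hja
        exact absurd h5 hja
      · exact h
    have h6 := ih ⟨j, hj', hja⟩
    rw [xp, h5, C_0, zero_mul, add_zero] at h0
    exact h6 (pow_eq_zero_iff hℓ.out.ne_zero |>.mp h0)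

theorem exists_root [IsAlgClosed K] [hℓ : Fact ℓ.Prime] [CharP K ℓ] {a : ℕ → K} {m : ℕ}
    (h : ∃ j ≤ m, a j ≠ 0) : ∃ t : K, t ≠ 0 ∧ (xp ℓ a m).eval t = t := by
  set f : K[X] := xp ℓ a m - X with hf
  have hc0 : (xp ℓ a m).coeff 0 = 0 := xp_coeff a m hℓ.out.pos
  have hc1 : (xp ℓ a m).coeff 1 = 0 := xp_coeff a m hℓ.out.one_lt
  have hfac : f = X * (divX f) := by
    have h1 := X_mul_divX_add f
    rw [hf, coeff_sub, hc0, coeff_X_zero, sub_zero, C_0, add_zero] at h1
    exact h1.symm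
  have hg0 : (divX f).coeff 0 = -1 := by
    rw [coeff_divX, hf, coeff_sub, hc1, coeff_X_one, zero_sub]
  have hdeg : (divX f).degree ≠ 0 := by
    intro hd
    have h2 : divX f = C (-1) := by
      rw [eq_C_of_degree_eq_zero hd, hg0]
    have h3 : f = -X := by rw [hfac, h2, C_neg, C_1, mul_neg, mul_one]
    apply xp_ne_zero (ℓ := ℓ) h
    have h4 : xp ℓ a m = f + X := by rw [hf]; ring
    rw [h4, h3]; ring
  obtain ⟨t, ht⟩ := IsAlgClosed.exists_root (divX f) hdeg
  refine ⟨t, ?_, ?_⟩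
  · rintro rfl
    rw [IsRoot, ← coeff_zero_eq_eval_zero, hg0] at ht
    exact neg_ne_zero.mpr one_ne_zero ht
  · have h5 : f.eval t = 0 := by rw [hfac, eval_mul, ht, mul_zero]
    rw [hf, eval_sub, eval_X, sub_eq_zero] at h5
    exact h5

/-- **Lang**: a Frobenius-semilinear injective map has a nonzero fixed vector -/
theorem lang [IsAlgClosed K] [hℓ : Fact ℓ.Prime] [CharP K ℓ] {V : Type*} [AddCommGroup V]
    [Module K V] [FiniteDimensional K V] {S : V →+ V} (hS : ∀ (a : K) (v : V), S (a • v) = a ^ ℓ • S v)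
    (hinj : ∀ v, S v = 0 → v = 0) {v : V} (hv : v ≠ 0) : ∃ u : V, u ≠ 0 ∧ S u = u := by
  classical
  let w : ℕ → V := fun i => (S^[i]) v
  have hw : ∀ i, w (i + 1) = S (w i) := fun i => Function.iterate_succ_apply' _ _ _
  have hw0 : ∀ i, w i ≠ 0 := by
    intro i
    induction i with
    | zero => exact hv
    | succ i ih =>
      rw [hw]
      exact fun h => ih (hinj _ h)
  -- the first linear relation
  have hex : ∃ n, w n ∈ Submodule.span K (w '' Set.Iio n) := by
    let f : ℕ →o Submodule K V :=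
      { toFun := fun n => Submodule.span K (w '' Set.Iio n)
        monotone' := fun m n hmn => Submodule.span_mono (Set.image_mono (Set.Iio_subset_Iio hmn)) }
    obtain ⟨n, hn⟩ := monotone_stabilizes_iff_noetherian.mpr
      (inferInstance : IsNoetherian K V) f
    refine ⟨n, ?_⟩
    have h1 : w n ∈ f (n + 1) := Submodule.subset_span ⟨n, Nat.lt_succ_self n, rfl⟩
    rw [← hn (n + 1) (Nat.le_succ n)] at h1
    exact h1
  set n := Nat.find hex with hn
  have hn1 : w n ∈ Submodule.span K (w '' Set.Iio n) := Nat.find_spec hex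
  have hmin : ∀ m < n, w m ∉ Submodule.span K (w '' Set.Iio m) := fun m hm => Nat.find_min hex hm
  obtain ⟨m, hm⟩ : ∃ m, n = m + 1 := by
    refine Nat.exists_eq_succ_of_ne_zero ?_
    intro h0
    rw [h0] at hn1
    have : (Set.Iio 0 : Set ℕ) = ∅ := by ext; simp
    rw [this, Set.image_empty, Submodule.span_empty, Submodule.mem_bot] at hn1
    exact hw0 0 hn1
  rw [hm] at hn1
  -- coefficients
  obtain ⟨a, ha⟩ : ∃ a : ℕ → K, w (m + 1) = ∑ i ∈ Finset.range (m + 1), a i • w i := by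
    have h1 : w '' Set.Iio (m + 1) = w '' (Finset.range (m + 1) : Set ℕ) := by
      congr 1
      ext i
      simp
    rw [h1, Submodule.mem_span_image_finset_iff_exists_fun] at hn1
    obtain ⟨c, hc⟩ := hn1
    refine ⟨fun i => if h : i ∈ Finset.range (m + 1) then c ⟨i, h⟩ else 0, ?_⟩
    rw [← hc, ← Finset.sum_coe_sort (Finset.range (m + 1))
      (fun i => (if h : i ∈ Finset.range (m + 1) then c ⟨i, h⟩ else 0) • w i)]
    refine Finset.sum_congr rfl fun i _ => ?_
    rw [dif_pos i.2]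
  have hane : ∃ j ≤ m, a j ≠ 0 := by
    by_contra hcon
    push Not at hcon
    apply hw0 (m + 1)
    rw [ha]
    refine Finset.sum_eq_zero fun i hi => ?_
    rw [hcon i (by rw [Finset.mem_range] at hi; omega), zero_smul]
  obtain ⟨t, ht0, ht⟩ := exists_root (ℓ := ℓ) hane
  let x : ℕ → K := fun i => (xp ℓ a i).eval t
  have hx0 : x 0 = a 0 * t ^ ℓ := by
    change (xp ℓ a 0).eval t = _
    rw [xp, eval_mul, eval_C, eval_pow, eval_X]
  have hxs : ∀ i, x (i + 1) = x i ^ ℓ + a (i + 1) * t ^ ℓ := by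
    intro i
    change (xp ℓ a (i + 1)).eval t = _
    rw [xp, eval_add, eval_pow, eval_mul, eval_C, eval_pow, eval_X]
  have hxm : x m = t := ht
  refine ⟨∑ i ∈ Finset.range (m + 1), x i • w i, ?_, ?_⟩
  · intro h0
    rw [Finset.sum_range_succ, hxm] at h0
    apply hmin m (by omega)
    have h1 : w m = t⁻¹ • (-∑ i ∈ Finset.range m, x i • w i) := by
      rw [eq_inv_smul_iff₀ ht0]
      exact (neg_eq_of_add_eq_zero_right h0).symm
    rw [h1]
    refine Submodule.smul_mem _ _ (Submodule.neg_mem _ (Submodule.sum_mem _ fun i hi => ?_))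
    exact Submodule.smul_mem _ _ (Submodule.subset_span ⟨i, Finset.mem_range.mp hi, rfl⟩)
  · rw [map_sum, Finset.sum_range_succ, hS, hxm, ← hw, ha, Finset.smul_sum,
      Finset.sum_range_succ' (fun i => t ^ ℓ • a i • w i), Finset.sum_range_succ' (fun i => x i • w i),
      hx0, ← add_assoc, ← Finset.sum_add_distrib]
    congr 1
    · refine Finset.sum_congr rfl fun i _ => ?_
      rw [hS, ← hw, hxs, add_smul, smul_smul, mul_comm (t ^ ℓ)]
    · rw [smul_smul, mul_comm (t ^ ℓ)]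

end Fermat.Agent.MazFF
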